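/-
S16lib / package Op (helper8): the Fricke matrix `W = [[0,-1],[p,0]]`, the `W`-slash of a modular
form on `Γ₀(p)` as a modular form on `Γ₀(p)`, and scalar matrices under the slash action.
-/
import Mathlib
import Fermat.Prelude.Def_ModularForm_HeckeOperatorForms

set_option autoImplicit false

noncomputable section

namespace Fermat.Agent.S16lib.Op

open scoped MatrixGroups ModularForm
open UpperHalfPlane CongruenceSubgroup Matrix ModularForm

instance neZero_of_fact_prime (p : ℕ) [Fact p.Prime] : NeZero p := ⟨(Fact.out : p.Prime).ne_zero⟩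

/-- The Fricke matrix `[[0,-1],[p,0]]`. -/
def wMat (p : ℕ) [NeZero p] : GL (Fin 2) ℝ :=
  Matrix.GeneralLinearGroup.mkOfDetNeZero !![0, -1; (p : ℝ), 0]
    (by simp [Matrix.det_fin_two_of, NeZero.ne])

@[simp] lemma val_wMat (p : ℕ) [NeZero p] :
    ((wMat p : GL (Fin 2) ℝ) : Matrix (Fin 2) (Fin 2) ℝ) = !![0, -1; (p : ℝ), 0] := rfl

lemma det_wMat (p : ℕ) [NeZero p] : ((wMat p).det : ℝ) = p := by
  rw [Matrix.GeneralLinearGroup.val_det_apply, val_wMat, Matrix.det_fin_two_of]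
  ring

lemma det_wMat_pos (p : ℕ) [NeZero p] : 0 < ((wMat p).det : ℝ) := by
  rw [det_wMat]; exact_mod_cast Nat.pos_of_ne_zero (NeZero.ne p)

lemma σ_wMat (p : ℕ) [NeZero p] : UpperHalfPlane.σ (wMat p) = .refl ℝ ℂ := by
  rw [UpperHalfPlane.σ, if_pos (det_wMat_pos p)]

/-- entries of the image in `GL(2,ℝ)` of an integer matrix -/
lemma mapGL_apply (g : SL(2, ℤ)) (i j : Fin 2) :
    ((Matrix.SpecialLinearGroup.mapGL ℝ g : GL (Fin 2) ℝ) : Matrix (Fin 2) (Fin 2) ℝ) i j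
      = ((g i j : ℤ) : ℝ) := by
  simp [Matrix.SpecialLinearGroup.mapGL_coe_matrix]

lemma mem_Gamma0_iff (p : ℕ) (g : SL(2, ℤ)) : g ∈ Gamma0 p ↔ (p : ℤ) ∣ g 1 0 := by
  rw [Gamma0_mem, ZMod.intCast_zmod_eq_zero_iff_dvd]

/-- `W γ = γ' W` with `γ' ∈ Γ₀(p)` for `γ ∈ Γ₀(p)`. -/
lemma exists_wMat_mul (p : ℕ) [NeZero p] {g : SL(2, ℤ)} (hg : g ∈ Gamma0 p) :
    ∃ g' ∈ Gamma0 p, wMat p * Matrix.SpecialLinearGroup.mapGL ℝ g =
      Matrix.SpecialLinearGroup.mapGL ℝ g' * wMat p := by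
  rw [mem_Gamma0_iff] at hg
  obtain ⟨c', hc'⟩ := hg
  have hdet : g 0 0 * g 1 1 - g 0 1 * g 1 0 = 1 := by
    have := g.det_coe
    rwa [Matrix.det_fin_two] at this
  have hd : (!![g 1 1, -c'; -((p : ℤ) * g 0 1), g 0 0] : Matrix (Fin 2) (Fin 2) ℤ).det = 1 := by
    rw [Matrix.det_fin_two_of]
    rw [hc'] at hdet
    linear_combination hdet
  let g' : SL(2, ℤ) := ⟨!![g 1 1, -c'; -((p : ℤ) * g 0 1), g 0 0], hd⟩
  have h00 : g' 0 0 = g 1 1 := rfl
  have h01 : g' 0 1 = -c' := rfl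
  have h10 : g' 1 0 = -((p : ℤ) * g 0 1) := rfl
  have h11 : g' 1 1 = g 0 0 := rfl
  refine ⟨g', ?_, ?_⟩
  · rw [mem_Gamma0_iff, h10]
    exact ⟨-g 0 1, by ring⟩
  · apply Matrix.GeneralLinearGroup.ext
    intro i j
    simp only [Matrix.GeneralLinearGroup.coe_mul, val_wMat, Matrix.mul_apply, Fin.sum_univ_two,
      mapGL_apply]
    fin_cases i <;> fin_cases j <;> simp [hc', h00, h01, h10, h11] <;> ring

/-- the same, for the images in `GL(2,ℝ)` -/
lemma exists_wMat_mul_GL (p : ℕ) [NeZero p] {γ : GL (Fin 2) ℝ}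
    (hγ : γ ∈ (Gamma0 p : Subgroup (GL (Fin 2) ℝ))) :
    ∃ γ' ∈ (Gamma0 p : Subgroup (GL (Fin 2) ℝ)), wMat p * γ = γ' * wMat p := by
  obtain ⟨g, hg, rfl⟩ := hγ
  obtain ⟨g', hg', h⟩ := exists_wMat_mul p hg
  exact ⟨_, ⟨g', hg', rfl⟩, h⟩

open ConjAct Pointwise in
lemma Gamma0_le_conj (p : ℕ) [NeZero p] :
    (Gamma0 p : Subgroup (GL (Fin 2) ℝ)) ≤
      toConjAct (wMat p)⁻¹ • (Gamma0 p : Subgroup (GL (Fin 2) ℝ)) := by
  intro γ hγ
  obtain ⟨γ', hγ', h⟩ := exists_wMat_mul_GL p hγ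
  rw [Subgroup.mem_pointwise_smul_iff_inv_smul_mem, map_inv, inv_inv, toConjAct_smul]
  rw [h]
  simpa using hγ'

/-- The `W`-slash of a modular form on `Γ₀(p)`, as a modular form on `Γ₀(p)`. -/
def wSlash (p : ℕ) [NeZero p] {k : ℤ} (f : ModularForm (Gamma0 p) k) :
    ModularForm (Gamma0 p) k where
  toFun := ⇑f ∣[k] wMat p
  slash_action_eq' γ hγ := by
    obtain ⟨γ', hγ', h⟩ := exists_wMat_mul_GL p hγ
    rw [← SlashAction.slash_mul, h, SlashAction.slash_mul,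
      SlashInvariantFormClass.slash_action_eq f γ' hγ']
  holo' := (ModularForm.translate f (wMat p)).holo'
  bdd_at_cusps' hc := (ModularForm.translate f (wMat p)).bdd_at_cusps' (hc.mono (Gamma0_le_conj p))

@[simp] lemma coe_wSlash (p : ℕ) [NeZero p] {k : ℤ} (f : ModularForm (Gamma0 p) k) :
    ⇑(wSlash p f) = ⇑f ∣[k] wMat p := rfl

lemma wSlash_add (p : ℕ) [NeZero p] {k : ℤ} (f g : ModularForm (Gamma0 p) k) :
    wSlash p (f + g) = wSlash p f + wSlash p g :=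
  DFunLike.coe_injective <| by
    rw [FunLike.coe_add, coe_wSlash, coe_wSlash, coe_wSlash, FunLike.coe_add,
      SlashAction.add_slash]

lemma wSlash_smul (p : ℕ) [NeZero p] {k : ℤ} (c : ℂ) (f : ModularForm (Gamma0 p) k) :
    wSlash p (c • f) = c • wSlash p f :=
  DFunLike.coe_injective <| by
    rw [FunLike.coe_smul, coe_wSlash, coe_wSlash, FunLike.coe_smul,
      ModularForm.smul_slash, σ_wMat, ContinuousAlgEquiv.refl_apply]

/-! ### scalar matrices -/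

/-- the scalar matrix `a • 1` in `GL(2,ℝ)`, `a ≠ 0` -/
def scalarGL (a : ℝ) (ha : a ≠ 0) : GL (Fin 2) ℝ :=
  ModularForm.upperTriangularGL a 0 a (mul_ne_zero ha ha)

@[simp] lemma val_scalarGL (a : ℝ) (ha : a ≠ 0) :
    ((scalarGL a ha : GL (Fin 2) ℝ) : Matrix (Fin 2) (Fin 2) ℝ) = !![a, 0; 0, a] := rfl

lemma det_scalarGL (a : ℝ) (ha : a ≠ 0) : ((scalarGL a ha).det : ℝ) = a * a := by
  rw [Matrix.GeneralLinearGroup.val_det_apply, val_scalarGL, Matrix.det_fin_two_of]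
  ring

lemma det_scalarGL_pos (a : ℝ) (ha : a ≠ 0) : 0 < ((scalarGL a ha).det : ℝ) := by
  rw [det_scalarGL]; exact mul_self_pos.mpr ha

lemma scalarGL_smul (a : ℝ) (ha : a ≠ 0) (τ : ℍ) : scalarGL a ha • τ = τ := by
  apply UpperHalfPlane.ext
  rw [UpperHalfPlane.coe_smul_of_det_pos (det_scalarGL_pos a ha)]
  have : (a : ℂ) ≠ 0 := by exact_mod_cast ha
  simp [UpperHalfPlane.num, UpperHalfPlane.denom, val_scalarGL]
  field_simp

/-- scalar matrices act by the scalar `a^{k-2}` in weight `k`. -/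
lemma slash_scalarGL (k : ℤ) (a : ℝ) (ha : a ≠ 0) (f : ℍ → ℂ) :
    f ∣[k] scalarGL a ha = ((a : ℂ) ^ (k - 2)) • f := by
  ext τ
  have ha' : (a : ℂ) ≠ 0 := by exact_mod_cast ha
  rw [ModularForm.slash_apply, scalarGL_smul, UpperHalfPlane.σ,
    if_pos (det_scalarGL_pos a ha), det_scalarGL]
  have hden : UpperHalfPlane.denom (scalarGL a ha) τ = a := by
    simp [UpperHalfPlane.denom, val_scalarGL]
  rw [hden, abs_of_pos (mul_self_pos.mpr ha)]
  simp only [ContinuousAlgEquiv.refl_apply, Pi.smul_apply, smul_eq_mul, Complex.ofReal_mul]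
  rw [← pow_two, ← zpow_natCast, ← _root_.zpow_mul, mul_assoc, ← zpow_add₀ ha', mul_comm]
  congr 2
  push_cast
  ring

/-- `W² = -p`. -/
lemma wMat_mul_wMat (p : ℕ) [NeZero p] :
    wMat p * wMat p = scalarGL (-(p : ℝ)) (neg_ne_zero.mpr (Nat.cast_ne_zero.mpr (NeZero.ne p))) := by
  apply Matrix.GeneralLinearGroup.ext
  intro i j
  simp only [Matrix.GeneralLinearGroup.coe_mul, val_wMat, val_scalarGL, Matrix.mul_apply,
    Fin.sum_univ_two]
  fin_cases i <;> fin_cases j <;> simp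

/-- `W` is an involution in weight 2. -/
lemma wSlash_wSlash_two (p : ℕ) [NeZero p] (f : ModularForm (Gamma0 p) 2) :
    wSlash p (wSlash p f) = f :=
  DFunLike.coe_injective <| by
    rw [coe_wSlash, coe_wSlash, ← SlashAction.slash_mul, wMat_mul_wMat, slash_scalarGL]
    simp

/-- In general weight, `(f∣W)∣W = (-p)^{k-2} f`. -/
lemma wSlash_wSlash (p : ℕ) [NeZero p] {k : ℤ} (f : ModularForm (Gamma0 p) k) :
    wSlash p (wSlash p f) = ((-(p : ℂ)) ^ (k - 2)) • f :=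
  DFunLike.coe_injective <| by
    rw [coe_wSlash, coe_wSlash, ← SlashAction.slash_mul, wMat_mul_wMat, slash_scalarGL,
      FunLike.coe_smul]
    push_cast
    rfl

end Fermat.Agent.S16lib.Op
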