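/-
S16lib / package Op (helper8): coset representatives `1, S T^j (0 ≤ j < p)` of `Γ₀(p)\SL₂(ℤ)`,
the conjugate formula `f∣ST^j = p^{2-k} (f∣W)∣[[1,j],[0,p]]` and the explicit trace formula
`Tr f = f + p^{2-k} U_p (f∣W)` for Mathlib's `ModularForm.trace`.
-/
import Fermat.Agent.S16lib.Op.WMat

set_option autoImplicit false

noncomputable section

namespace Fermat.Agent.S16lib.Op

open scoped MatrixGroups ModularForm
open UpperHalfPlane CongruenceSubgroup Matrix ModularForm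

/-- the coset representative `S T^j` -/
def stRep (j : ℕ) : SL(2, ℤ) := ModularGroup.S * ModularGroup.T ^ j

lemma coe_stRep (j : ℕ) :
    ((stRep j : SL(2, ℤ)) : Matrix (Fin 2) (Fin 2) ℤ) = !![0, -1; 1, (j : ℤ)] := by
  rw [stRep, Matrix.SpecialLinearGroup.coe_mul, ModularGroup.coe_S, ← zpow_natCast,
    ModularGroup.coe_T_zpow]
  ext i k
  fin_cases i <;> fin_cases k <;> simp [Matrix.mul_apply, Fin.sum_univ_two]

lemma stRep_mul_apply_one_zero (j : ℕ) (g : SL(2, ℤ)) :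
    (stRep j * g) 1 0 = g 0 0 + j * g 1 0 := by
  rw [Matrix.SpecialLinearGroup.coe_mul, coe_stRep]
  simp [Matrix.mul_apply, Fin.sum_univ_two]

lemma stRep_mul_inv_apply_one_zero (i j : ℕ) :
    (stRep i * (stRep j)⁻¹) 1 0 = (j : ℤ) - i := by
  rw [Matrix.SpecialLinearGroup.coe_mul, Matrix.SpecialLinearGroup.coe_inv, coe_stRep, coe_stRep,
    Matrix.adjugate_fin_two_of]
  simp [Matrix.mul_apply, Fin.sum_univ_two]
  ring

lemma stRep_not_mem (p : ℕ) (hp : 1 < p) (j : ℕ) : stRep j ∉ Gamma0 p := by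
  rw [mem_Gamma0_iff, coe_stRep]
  simp only [Matrix.of_apply, Matrix.cons_val', Matrix.cons_val_one, Matrix.cons_val_zero]
  intro h
  have := Int.le_of_dvd one_pos h
  omega

lemma exists_stRep_mul_mem (p : ℕ) [Fact p.Prime] (g : SL(2, ℤ)) (hg : g ∉ Gamma0 p) :
    ∃ j < p, stRep j * g ∈ Gamma0 p := by
  rw [Gamma0_mem] at hg
  refine ⟨(-((g 0 0 : ℤ) : ZMod p) / ((g 1 0 : ℤ) : ZMod p)).val, ZMod.val_lt _, ?_⟩
  rw [Gamma0_mem, stRep_mul_apply_one_zero]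
  push_cast
  rw [ZMod.natCast_zmod_val, div_mul_cancel₀ _ hg]
  ring

/-! ### the conjugate formula -/

lemma mapGL_stRep (p : ℕ) [NeZero p] (j : ℕ) :
    Matrix.SpecialLinearGroup.mapGL ℝ (stRep j) =
      wMat p * scalarGL ((p : ℝ)⁻¹) (inv_ne_zero (Nat.cast_ne_zero.mpr (NeZero.ne p))) *
        ModularForm.heckeMatrix p j := by
  have hp : (p : ℝ) ≠ 0 := Nat.cast_ne_zero.mpr (NeZero.ne p)
  apply Matrix.GeneralLinearGroup.ext
  intro i k
  simp only [Matrix.GeneralLinearGroup.coe_mul, val_wMat, val_scalarGL,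
    ModularForm.val_heckeMatrix (NeZero.ne p), mapGL_apply, coe_stRep, Matrix.mul_apply,
    Fin.sum_univ_two]
  fin_cases i <;> fin_cases k <;> simp

/-- **Conjugate formula**: `f ∣ S T^j = p^{2-k} (f ∣ W) ∣ [[1,j],[0,p]]`. -/
lemma slash_stRep (p : ℕ) [NeZero p] (k : ℤ) (f : ℍ → ℂ) (j : ℕ) :
    f ∣[k] (stRep j) =
      ((p : ℂ) ^ (2 - k)) • ((f ∣[k] wMat p) ∣[k] ModularForm.heckeMatrix p j) := by
  have hp : (p : ℝ)⁻¹ ≠ 0 := inv_ne_zero (Nat.cast_ne_zero.mpr (NeZero.ne p))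
  change f ∣[k] (Matrix.SpecialLinearGroup.mapGL ℝ (stRep j)) = _
  rw [mapGL_stRep p j, SlashAction.slash_mul, SlashAction.slash_mul,
    slash_scalarGL k _ hp, ModularForm.smul_slash, ModularForm.σ_heckeMatrix]
  simp only [ContinuousAlgEquiv.refl_apply]
  congr 1
  push_cast
  rw [_root_.inv_zpow', neg_sub]

/-- Pointwise form: `(f ∣ S T^j)(τ) = p^{1-k} (f∣W)((τ+j)/p)`. -/
lemma slash_stRep_apply (p : ℕ) [NeZero p] (k : ℤ) (f : ℍ → ℂ) (j : ℕ) (τ : ℍ) :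
    (f ∣[k] (stRep j)) τ =
      (p : ℂ) ^ (1 - k) * (f ∣[k] wMat p) (ModularForm.heckeMatrix p j • τ) := by
  have hp : (p : ℂ) ≠ 0 := Nat.cast_ne_zero.mpr (NeZero.ne p)
  rw [slash_stRep p, Pi.smul_apply, ModularForm.slash_heckeMatrix_apply k (NeZero.ne p),
    smul_eq_mul, ← mul_assoc, ← _root_.zpow_neg_one, ← zpow_add₀ hp]
  congr 2
  ring

/-- `Σ_j f∣ST^j = p^{2-k} U_p(f∣W)`. -/
lemma sum_slash_stRep (p : ℕ) [NeZero p] (k : ℤ) (f : ℍ → ℂ) :
    ∑ j ∈ Finset.range p, f ∣[k] (stRep j) =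
      ((p : ℂ) ^ (2 - k)) • ModularForm.heckeU k p (f ∣[k] wMat p) := by
  rw [ModularForm.heckeU_def, Finset.smul_sum]
  exact Finset.sum_congr rfl fun j _ => slash_stRep p k f j

/-! ### enumeration of the cosets -/

/-- an element of `SL(2,ℤ)` as an element of the subgroup `𝒮ℒ ≤ GL(2,ℝ)` -/
def slElt (g : SL(2, ℤ)) : 𝒮ℒ := ⟨Matrix.SpecialLinearGroup.mapGL ℝ g, g, rfl⟩

lemma slElt_mul (g g' : SL(2, ℤ)) : slElt (g * g') = slElt g * slElt g' :=
  Subtype.ext (map_mul _ _ _)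

lemma slElt_inv (g : SL(2, ℤ)) : slElt g⁻¹ = (slElt g)⁻¹ :=
  Subtype.ext (map_inv _ _)

lemma exists_slElt (h : 𝒮ℒ) : ∃ g, slElt g = h := by
  obtain ⟨h, g, rfl⟩ := h
  exact ⟨g, rfl⟩

lemma mk_slElt_eq_iff (p : ℕ) (g g' : SL(2, ℤ)) :
    (QuotientGroup.mk (slElt g) : 𝒮ℒ ⧸ (Gamma0 p : Subgroup (GL (Fin 2) ℝ)).subgroupOf 𝒮ℒ) =
      QuotientGroup.mk (slElt g') ↔ g⁻¹ * g' ∈ Gamma0 p := by
  rw [QuotientGroup.eq, Subgroup.mem_subgroupOf, ← slElt_inv, ← slElt_mul]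
  exact Subgroup.mem_map_iff_mem Matrix.SpecialLinearGroup.mapGL_injective

/-- the enumeration of `SL₂(ℤ)/Γ₀(p)` by `ℙ¹(𝔽_p)` -/
def cosetMap (p : ℕ) : Option (Fin p) →
    (𝒮ℒ ⧸ (Gamma0 p : Subgroup (GL (Fin 2) ℝ)).subgroupOf 𝒮ℒ)
  | none => QuotientGroup.mk (slElt 1)
  | some j => QuotientGroup.mk (slElt (stRep j)⁻¹)

lemma cosetMap_bijective (p : ℕ) [hp : Fact p.Prime] : Function.Bijective (cosetMap p) := by
  constructor
  · rintro (_ | i) (_ | j) h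
    · rfl
    · exfalso
      rw [cosetMap, cosetMap, mk_slElt_eq_iff, inv_one, one_mul] at h
      exact stRep_not_mem p hp.out.one_lt j (by simpa using (Gamma0 p).inv_mem h)
    · exfalso
      rw [cosetMap, cosetMap, mk_slElt_eq_iff, inv_inv, mul_one] at h
      exact stRep_not_mem p hp.out.one_lt i h
    · rw [cosetMap, cosetMap, mk_slElt_eq_iff, inv_inv, mem_Gamma0_iff,
        stRep_mul_inv_apply_one_zero] at h
      congr 1
      apply Fin.ext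
      have hi := i.2
      have hj := j.2
      have h0 : ((j : ℕ) : ℤ) - ((i : ℕ) : ℤ) = 0 := by
        apply Int.eq_zero_of_abs_lt_dvd h
        rw [abs_lt]
        constructor <;> omega
      omega
  · intro q
    obtain ⟨h, rfl⟩ := QuotientGroup.mk_surjective q
    obtain ⟨g, rfl⟩ := exists_slElt h
    by_cases hg : g ∈ Gamma0 p
    · refine ⟨none, ?_⟩
      rw [cosetMap, mk_slElt_eq_iff, inv_one, one_mul]
      exact hg
    · obtain ⟨j, hj, hmem⟩ := exists_stRep_mul_mem p g hg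
      refine ⟨some ⟨j, hj⟩, ?_⟩
      rw [cosetMap, mk_slElt_eq_iff, inv_inv]
      exact hmem

/-- **Explicit trace**: Mathlib's trace from `Γ₀(p)` to level one is `f + Σ_j f∣ST^j`. -/
theorem coe_trace_eq (p : ℕ) [Fact p.Prime] {k : ℤ} (f : ModularForm (Gamma0 p) k) :
    ⇑(ModularForm.trace 𝒮ℒ f) = ⇑f + ∑ j ∈ Finset.range p, ⇑f ∣[k] stRep j := by
  rw [ModularForm.coe_trace]
  let _ : Fintype (𝒮ℒ ⧸ (Gamma0 p : Subgroup (GL (Fin 2) ℝ)).subgroupOf 𝒮ℒ) := Fintype.ofFinite _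
  refine (Function.Bijective.sum_comp (cosetMap_bijective p) _).symm.trans ?_
  rw [Fintype.sum_option, ← Fin.sum_univ_eq_sum_range (fun j => (⇑f) ∣[k] stRep j) p]
  congr 1
  · rw [cosetMap]
    change SlashInvariantForm.quotientFunc f ⟦slElt 1⟧ = _
    rw [SlashInvariantForm.quotientFunc_mk]
    simp [slElt]
  · refine Finset.sum_congr rfl fun j _ => ?_
    rw [cosetMap]
    change SlashInvariantForm.quotientFunc f ⟦slElt (stRep j)⁻¹⟧ = _
    rw [SlashInvariantForm.quotientFunc_mk]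
    simp [slElt]
    rfl

/-- **Trace formula**: `Tr f = f + p^{2-k} U_p(f∣W)`. -/
theorem coe_trace_eq_add_heckeU (p : ℕ) [Fact p.Prime] {k : ℤ} (f : ModularForm (Gamma0 p) k) :
    ⇑(ModularForm.trace 𝒮ℒ f) =
      ⇑f + ((p : ℂ) ^ (2 - k)) • ModularForm.heckeU k p ⇑(wSlash p f) := by
  rw [coe_trace_eq, sum_slash_stRep, coe_wSlash]

end Fermat.Agent.S16lib.Op
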