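/-
S16lib / package Op (helper8): weight 2 on `Γ₀(p)`: the trace to level one vanishes, hence
`G∣W = -U_p G` for every `G ∈ M₂(Γ₀(p))`, and `a_n(G∣W) = -a_{np}(G)`.
-/
import Fermat.Agent.S16lib.Op.Cosets
import Fermat.Prelude.Thm_ModularFormClass_qCoeff_heckeU
import Fermat.Prelude.Thm_CongruenceSubgroup_one_mem_strictPeriods_Gamma0

set_option autoImplicit false

noncomputable section

namespace Fermat.Agent.S16lib.Op

open scoped MatrixGroups ModularForm
open UpperHalfPlane CongruenceSubgroup Matrix ModularForm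

/-- there are no nonzero level-one forms of weight 2 -/
lemma levelOne_weight_two_eq_zero (F : ModularForm 𝒮ℒ 2) : F = 0 :=
  rank_zero_iff_forall_zero.mp ModularForm.levelOne_weight_two_rank_zero F

variable (p : ℕ) [Fact p.Prime]

/-- `G = -U_p(G∣W)` in weight 2. -/
theorem coe_eq_neg_heckeU_wSlash (G : ModularForm (Gamma0 p) 2) :
    ⇑G = -ModularForm.heckeU 2 p ⇑(wSlash p G) := by
  have h := coe_trace_eq_add_heckeU p G
  rw [levelOne_weight_two_eq_zero (ModularForm.trace 𝒮ℒ G)] at h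
  simp only [sub_self, zpow_zero, one_smul] at h
  rw [eq_neg_iff_add_eq_zero]
  exact h.symm

/-- **`G∣W = -U_p G`** in weight 2 (as functions). -/
theorem coe_wSlash_eq_neg_heckeU (G : ModularForm (Gamma0 p) 2) :
    ⇑(wSlash p G) = -ModularForm.heckeU 2 p ⇑G := by
  have h := coe_eq_neg_heckeU_wSlash p (wSlash p G)
  rwa [wSlash_wSlash_two] at h

/-- **`G∣W = -U_p G`** in weight 2 (as modular forms). -/
theorem wSlash_eq_neg_heckeULin (G : ModularForm (Gamma0 p) 2) :
    wSlash p G = -ModularForm.heckeULin 2 (dvd_refl p) G :=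
  DFunLike.coe_injective <| by
    rw [coe_wSlash_eq_neg_heckeU]
    rfl

/-- `a_n(G∣W) = -a_{np}(G)`. -/
theorem qCoeff_wSlash (G : ModularForm (Gamma0 p) 2) (n : ℕ) :
    ModularFormClass.qCoeff ⇑(wSlash p G) n = -ModularFormClass.qCoeff ⇑G (n * p) := by
  have h1 := ModularFormClass.qCoeff_heckeU G (CongruenceSubgroup.one_mem_strictPeriods_Gamma0 p)
    (Fact.out : p.Prime).ne_zero n
  rw [ModularForm.coeffHeckeU_apply] at h1
  rw [← h1, coe_wSlash_eq_neg_heckeU]
  have h2 := ModularForm.qExpansion_neg one_pos (CongruenceSubgroup.one_mem_strictPeriods_Gamma0 p)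
    (ModularForm.heckeULin 2 (dvd_refl p) G)
  rw [ModularForm.coe_heckeULin_apply] at h2
  rw [ModularFormClass.qCoeff, h2]
  rfl

end Fermat.Agent.S16lib.Op
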