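/-
S16lib / package Op (helper8): `W` on products and on old forms.
* `wSlash_mul`  : `(F₁F₂)∣W = p (F₁∣W)(F₂∣W)`  (Mathlib's slash has a `det^{k-1}` factor).
* for a level-one form `E` of weight `k`, `E∣W = E∣diag(p,1) = p^{k-1} E(pτ)` with its `q`-expansion
  `Σ p^{k-1} a_n q^{pn}`.
-/
import Fermat.Agent.S16lib.TX.ConjPoly

set_option autoImplicit false

noncomputable section

namespace Fermat.Agent.S16lib.Op

open scoped MatrixGroups ModularForm Manifold
open UpperHalfPlane CongruenceSubgroup Matrix ModularForm Function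
open Fermat.Agent.S16lib.TX

local notation "𝕢" => Periodic.qParam

variable (p : ℕ) [NeZero p] {k k₁ k₂ : ℤ}

/-- `(F₁ F₂)∣W = p · (F₁∣W)(F₂∣W)`. -/
theorem wSlash_mul (F₁ : ModularForm (Gamma0 p) k₁) (F₂ : ModularForm (Gamma0 p) k₂) :
    ⇑(wSlash p (F₁.mul F₂)) = (p : ℂ) • (⇑(wSlash p F₁) * ⇑(wSlash p F₂)) := by
  rw [coe_wSlash, coe_wSlash, coe_wSlash, ModularForm.coe_mul, ModularForm.mul_slash, det_wMat,
    abs_of_pos (Nat.cast_pos.mpr (NeZero.pos p))]
  ext τ
  simp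

/-- `W = S · diag(p,1)` in `GL(2,ℝ)`. -/
lemma wMat_eq_S_mul_diag :
    wMat p = Matrix.SpecialLinearGroup.mapGL ℝ ModularGroup.S * ModularForm.heckeDiagMatrix p := by
  apply Matrix.GeneralLinearGroup.ext
  intro i j
  simp only [Matrix.GeneralLinearGroup.coe_mul, val_wMat,
    ModularForm.val_heckeDiagMatrix (NeZero.ne p), mapGL_apply, ModularGroup.coe_S,
    Matrix.mul_apply, Fin.sum_univ_two]
  fin_cases i <;> fin_cases j <;> simp

/-- For a level-one form, `E∣W = E∣diag(p,1)`. -/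
theorem coe_wSlash_levelOneRestrict (E : ModularForm 𝒮ℒ k) :
    ⇑(wSlash p (levelOneRestrict p E)) = ⇑E ∣[k] ModularForm.heckeDiagMatrix p := by
  rw [coe_wSlash, coe_levelOneRestrict, wMat_eq_S_mul_diag, SlashAction.slash_mul]
  congr 1
  exact slash_levelOne E ModularGroup.S

/-- Pointwise: `(E∣W)(τ) = p^{k-1} E(pτ)`. -/
theorem wSlash_levelOneRestrict_apply (E : ModularForm 𝒮ℒ k) (τ : ℍ) :
    wSlash p (levelOneRestrict p E) τ =
      (p : ℂ) ^ (k - 1) * E (ModularForm.heckeDiagMatrix p • τ) := by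
  have h := congrFun (coe_wSlash_levelOneRestrict p E) τ
  rw [ModularForm.slash_heckeDiagMatrix_apply k (NeZero.ne p)] at h
  exact h

lemma qParam_one_heckeDiagMatrix_smul (τ : ℍ) :
    𝕢 1 ((ModularForm.heckeDiagMatrix p • τ : ℍ) : ℂ) = 𝕢 1 τ ^ p := by
  rw [ModularForm.coe_heckeDiagMatrix_smul (NeZero.ne p), Periodic.qParam, Periodic.qParam,
    ← Complex.exp_nat_mul]
  congr 1
  push_cast
  ring

/-- The `q`-expansion of `E∣W = p^{k-1} E(pτ)` is `Σ p^{k-1} a_n q^{pn}`. -/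
theorem qExpansion_wSlash_levelOneRestrict (E : ModularForm 𝒮ℒ k) :
    qExpansion 1 ⇑(wSlash p (levelOneRestrict p E)) = PowerSeries.mk fun n =>
      if p ∣ n then (p : ℂ) ^ (k - 1) * (qExpansion 1 ⇑E).coeff (n / p) else 0 := by
  apply qExpansion_eq_mk_of_hasSum one_pos (coe_mem_holRing_one p _)
  intro τ
  have h1 := (hasSum_qExpansion_of_mem one_pos (coe_mem_holRing_one_levelOne E)
    (ModularForm.heckeDiagMatrix p • τ)).mul_left ((p : ℂ) ^ (k - 1))
  rw [← wSlash_levelOneRestrict_apply] at h1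
  have hinj : Function.Injective fun n : ℕ => p * n :=
    fun a b hab => Nat.eq_of_mul_eq_mul_left (NeZero.pos p) hab
  rw [← hinj.hasSum_iff]
  · have e : ((fun m : ℕ => (if p ∣ m then (p : ℂ) ^ (k - 1) * (qExpansion 1 ⇑E).coeff (m / p)
        else 0) • 𝕢 1 (τ : ℂ) ^ m) ∘ fun n : ℕ => p * n) = fun n =>
        (p : ℂ) ^ (k - 1) * ((qExpansion 1 ⇑E).coeff n •
          𝕢 1 ((ModularForm.heckeDiagMatrix p • τ : ℍ) : ℂ) ^ n) := by
      funext n
      simp only [Function.comp_apply, dvd_mul_right, if_true,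
        Nat.mul_div_cancel_left _ (NeZero.pos p)]
      rw [qParam_one_heckeDiagMatrix_smul, ← pow_mul]
      simp only [smul_eq_mul]
      ring
    rw [e]
    exact h1
  · intro m hm
    have : ¬ p ∣ m := fun ⟨n, hn⟩ => hm ⟨n, hn.symm⟩
    simp [this]

theorem qCoeff_wSlash_levelOneRestrict (E : ModularForm 𝒮ℒ k) (n : ℕ) :
    (qExpansion 1 ⇑(wSlash p (levelOneRestrict p E))).coeff n =
      if p ∣ n then (p : ℂ) ^ (k - 1) * (qExpansion 1 ⇑E).coeff (n / p) else 0 := by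
  rw [qExpansion_wSlash_levelOneRestrict, PowerSeries.coeff_mk]

end Fermat.Agent.S16lib.Op
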